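import Mathlib

/-!
# Row LT, tower T1, leaf T1.14 (helper729): Blichfeldt's principle for `L × L ⊂ A × A`

OFF-MAIN.  Mathlib only.

* `isAddFundamentalDomain_prod729` : if `D` is a fundamental domain of the subgroup `L` of the
  additive group `A` for the invariant measure `μ`, then `D ×ˢ D` is a fundamental domain of
  `L × L` in `A × A` for `μ.prod μ`.
* `exists_lattice_diff729` : a measurable set `S ⊆ A × A` with `μ D * μ D < (μ.prod μ) S` contains
  two points whose difference is a non-zero element of `L × L`.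
-/

set_option autoImplicit false

open MeasureTheory Set
open scoped Pointwise ENNReal

noncomputable section

namespace Fermat.Agent.LT.T1.H729

set_option linter.unusedSectionVars false

variable {A : Type*} [AddCommGroup A] [MeasurableSpace A] [MeasurableAdd₂ A]

/-- Translates of a product set by an element of `L × L`. -/
theorem vadd_prod_set729 (L : AddSubgroup A) (g : (L.prod L : AddSubgroup (A × A)))
    (s t : Set A) :
    g +ᵥ (s ×ˢ t) = (((⟨g.1.1, g.2.1⟩ : L) +ᵥ s) ×ˢ ((⟨g.1.2, g.2.2⟩ : L) +ᵥ t)) := by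
  ext ⟨x, y⟩
  simp only [Set.mem_vadd_set, Set.mem_prod, Prod.exists]
  constructor
  · rintro ⟨a, b, ⟨ha, hb⟩, hab⟩
    have h1 : g.1.1 + a = x := congrArg Prod.fst hab
    have h2 : g.1.2 + b = y := congrArg Prod.snd hab
    exact ⟨⟨a, ha, h1⟩, ⟨b, hb, h2⟩⟩
  · rintro ⟨⟨a, ha, h1⟩, ⟨b, hb, h2⟩⟩
    refine ⟨a, b, ⟨ha, hb⟩, ?_⟩
    have h1' : g.1.1 + a = x := h1
    have h2' : g.1.2 + b = y := h2
    exact Prod.ext h1' h2'

/-- The product of a fundamental domain with itself is a fundamental domain of `L × L`. -/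
theorem isAddFundamentalDomain_prod729 (μ : Measure A) [SFinite μ] (L : AddSubgroup A)
    {D : Set A} (hDm : MeasurableSet D) (hD : IsAddFundamentalDomain L D μ) :
    IsAddFundamentalDomain (L.prod L : AddSubgroup (A × A)) (D ×ˢ D) (μ.prod μ) where
  nullMeasurableSet := (hDm.prod hDm).nullMeasurableSet
  ae_covers := by
    have h1 := hD.ae_covers
    have hx : ∀ᵐ p ∂(μ.prod μ), ∃ g : L, g +ᵥ p.1 ∈ D :=
      (Measure.quasiMeasurePreserving_fst (μ := μ) (ν := μ)).ae h1
    have hy : ∀ᵐ p ∂(μ.prod μ), ∃ g : L, g +ᵥ p.2 ∈ D :=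
      (Measure.quasiMeasurePreserving_snd (μ := μ) (ν := μ)).ae h1
    filter_upwards [hx, hy] with p hp hq
    obtain ⟨g, hg⟩ := hp
    obtain ⟨h, hh⟩ := hq
    exact ⟨⟨(g.1, h.1), ⟨g.2, h.2⟩⟩, ⟨hg, hh⟩⟩
  aedisjoint := by
    intro g g' hgg'
    change AEDisjoint (μ.prod μ) (g +ᵥ (D ×ˢ D)) (g' +ᵥ (D ×ˢ D))
    rw [vadd_prod_set729, vadd_prod_set729, AEDisjoint, Set.prod_inter_prod, Measure.prod_prod]
    by_cases h1 : (⟨g.1.1, g.2.1⟩ : L) = ⟨g'.1.1, g'.2.1⟩
    · have h2 : (⟨g.1.2, g.2.2⟩ : L) ≠ ⟨g'.1.2, g'.2.2⟩ := by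
        intro h2
        apply hgg'
        have e1 : g.1.1 = g'.1.1 := congrArg Subtype.val h1
        have e2 : g.1.2 = g'.1.2 := congrArg Subtype.val h2
        exact Subtype.ext (Prod.ext e1 e2)
      have := hD.aedisjoint h2
      rw [Function.onFun, AEDisjoint] at this
      rw [this, mul_zero]
    · have := hD.aedisjoint h1
      rw [Function.onFun, AEDisjoint] at this
      rw [this, zero_mul]

/-- `L × L` is countable when `L` is. -/
theorem countable_prod729 (L : AddSubgroup A) [Countable L] :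
    Countable (L.prod L : AddSubgroup (A × A)) := by
  have hinj : Function.Injective
      (fun g : (L.prod L : AddSubgroup (A × A)) =>
        ((⟨g.1.1, g.2.1⟩ : L), (⟨g.1.2, g.2.2⟩ : L))) := by
    intro g g' h
    have e1 : g.1.1 = g'.1.1 := congrArg (fun p : L × L => (p.1 : A)) h
    have e2 : g.1.2 = g'.1.2 := congrArg (fun p : L × L => (p.2 : A)) h
    exact Subtype.ext (Prod.ext e1 e2)
  exact hinj.countable

/-- **Blichfeldt for `L × L`**: a measurable subset of `A × A` of measure larger than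
`μ D * μ D` contains two points whose difference is a non-zero element of `L × L`. -/
theorem exists_lattice_diff729 [MeasurableAdd₂ (A × A)]
    (μ : Measure A) [SFinite μ] [μ.IsAddLeftInvariant]
    (L : AddSubgroup A) [Countable L]
    {D : Set A} (hDm : MeasurableSet D) (hD : IsAddFundamentalDomain L D μ)
    {S : Set (A × A)} (hS : MeasurableSet S) (h : μ D * μ D < (μ.prod μ) S) :
    ∃ ξ η : A, ξ ∈ L ∧ η ∈ L ∧ (ξ ≠ 0 ∨ η ≠ 0) ∧
      ∃ s ∈ S, ∃ s' ∈ S, s'.1 = ξ + s.1 ∧ s'.2 = η + s.2 := by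
  have : Countable (L.prod L : AddSubgroup (A × A)) := countable_prod729 L
  have fund := isAddFundamentalDomain_prod729 μ L hDm hD
  have hlt : (μ.prod μ) (D ×ˢ D) < (μ.prod μ) S := by rwa [Measure.prod_prod]
  obtain ⟨x, y, hxy, hnd⟩ :=
    exists_pair_mem_lattice_not_disjoint_vadd fund hS.nullMeasurableSet hlt
  obtain ⟨p, hp1, hp2⟩ := Set.not_disjoint_iff.mp hnd
  obtain ⟨s, hs, hsp⟩ := hp1
  obtain ⟨s', hs', hsp'⟩ := hp2
  -- `x + s = p = y + s'`, so `s = (y - x) + s'`
  have hsp1 : (x : A × A) + s = p := hsp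
  have hsp2 : (y : A × A) + s' = p := hsp'
  refine ⟨(y : A × A).1 - (x : A × A).1, (y : A × A).2 - (x : A × A).2,
    L.sub_mem y.2.1 x.2.1, L.sub_mem y.2.2 x.2.2, ?_, s', hs', s, hs, ?_, ?_⟩
  · by_contra hcon
    rw [not_or, not_not, not_not] at hcon
    apply hxy
    apply Subtype.ext
    exact Prod.ext (sub_eq_zero.mp hcon.1).symm (sub_eq_zero.mp hcon.2).symm
  · have h1 := congrArg Prod.fst (hsp1.trans hsp2.symm)
    simp only [Prod.fst_add] at h1
    rw [← sub_eq_zero] at h1 ⊢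
    rw [← h1]
    abel
  · have h1 := congrArg Prod.snd (hsp1.trans hsp2.symm)
    simp only [Prod.snd_add] at h1
    rw [← sub_eq_zero] at h1 ⊢
    rw [← h1]
    abel

end Fermat.Agent.LT.T1.H729
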