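import Mathlib

/-!
# Row LT, tower T1, leaf T1.14 (helper729): the measure of a sheared box

OFF-MAIN.  Mathlib only.  `A` is a commutative topological ring, second countable, with its Borel
σ-algebra, `μ` a σ-finite translation invariant measure which scales under multiplication by units:
`μ (u • X) = m u * μ X`.  Then for units `b₁`, `b₂`, any `x` and a measurable set `I`

`(μ.prod μ) {(r₁, r₂) | r₁ b₁ ∈ I ∧ r₁ x + r₂ b₂ ∈ I} = m b₁⁻¹ μ I * (m b₂⁻¹ μ I)`.
-/

set_option autoImplicit false

open MeasureTheory Set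
open scoped ENNReal

noncomputable section

namespace Fermat.Agent.LT.T1.H729

set_option linter.unusedSectionVars false

variable {A : Type*} [CommRing A] [TopologicalSpace A] [IsTopologicalRing A]
  [SecondCountableTopology A] [MeasurableSpace A] [BorelSpace A]

/-- Preimage under multiplication by a unit = image under multiplication by its inverse. -/
theorem preimage_mul_unit729 (b : Aˣ) (Y : Set A) :
    (fun r : A => r * (b : A)) ⁻¹' Y = (fun a : A => ((b⁻¹ : Aˣ) : A) * a) '' Y := by
  ext r
  simp only [Set.mem_preimage, Set.mem_image]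
  constructor
  · intro h
    refine ⟨r * b, h, ?_⟩
    rw [mul_comm ((b⁻¹ : Aˣ) : A), mul_assoc, Units.mul_inv, mul_one]
  · rintro ⟨a, ha, rfl⟩
    rw [mul_comm ((b⁻¹ : Aˣ) : A), mul_assoc, Units.inv_mul, mul_one]
    exact ha

/-- The sheared box. -/
def shearBox729 (b₁ b₂ : Aˣ) (x : A) (I : Set A) : Set (A × A) :=
  {p | p.1 * (b₁ : A) ∈ I ∧ p.1 * x + p.2 * (b₂ : A) ∈ I}

theorem measurableSet_shearBox729 (b₁ b₂ : Aˣ) (x : A) {I : Set A} (hI : MeasurableSet I) :
    MeasurableSet (shearBox729 b₁ b₂ x I) := by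
  have h1 : Measurable fun p : A × A => p.1 * (b₁ : A) :=
    (continuous_fst.mul continuous_const).measurable
  have h2 : Measurable fun p : A × A => p.1 * x + p.2 * (b₂ : A) :=
    ((continuous_fst.mul continuous_const).add (continuous_snd.mul continuous_const)).measurable
  exact (h1 hI).inter (h2 hI)

/-- **The measure of the sheared box.** -/
theorem measure_shearBox729 (μ : Measure A) [SFinite μ] [μ.IsAddLeftInvariant]
    (m : Aˣ → ℝ)
    (hscale : ∀ (u : Aˣ) (X : Set A),
      μ ((fun a : A => (u : A) * a) '' X) = ENNReal.ofReal (m u) * μ X)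
    (b₁ b₂ : Aˣ) (x : A) {I : Set A} (hI : MeasurableSet I) :
    (μ.prod μ) (shearBox729 b₁ b₂ x I) =
      (ENNReal.ofReal (m b₁⁻¹) * μ I) * (ENNReal.ofReal (m b₂⁻¹) * μ I) := by
  rw [Measure.prod_apply (measurableSet_shearBox729 b₁ b₂ x hI)]
  -- the sections
  have hsec : ∀ r : A, μ (Prod.mk r ⁻¹' shearBox729 b₁ b₂ x I) =
      Set.indicator ((fun r : A => r * (b₁ : A)) ⁻¹' I)
        (fun _ => ENNReal.ofReal (m b₂⁻¹) * μ I) r := by
    intro r
    by_cases hr : r * (b₁ : A) ∈ I
    · have hmem : r ∈ (fun r : A => r * (b₁ : A)) ⁻¹' I := hr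
      rw [Set.indicator_of_mem hmem]
      have hset : Prod.mk r ⁻¹' shearBox729 b₁ b₂ x I =
          (fun s : A => s * (b₂ : A)) ⁻¹' ((fun a : A => r * x + a) ⁻¹' I) := by
        ext s
        simp only [shearBox729, Set.mem_preimage, Set.mem_ofPred_eq]
        exact ⟨fun h => h.2, fun h => ⟨hr, h⟩⟩
      rw [hset, preimage_mul_unit729, hscale, measure_preimage_add]
    · have hmem : r ∉ (fun r : A => r * (b₁ : A)) ⁻¹' I := hr
      rw [Set.indicator_of_notMem hmem]
      have hset : Prod.mk r ⁻¹' shearBox729 b₁ b₂ x I = ∅ := by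
        ext s
        simp only [shearBox729, Set.mem_preimage, Set.mem_ofPred_eq, Set.mem_empty_iff_false,
          iff_false, not_and]
        exact fun h => absurd h hr
      rw [hset, measure_empty]
  simp_rw [hsec]
  have hmeas : MeasurableSet ((fun r : A => r * (b₁ : A)) ⁻¹' I) :=
    (continuous_id.mul continuous_const).measurable hI
  rw [lintegral_indicator hmeas, lintegral_const, Measure.restrict_apply MeasurableSet.univ,
    Set.univ_inter, preimage_mul_unit729, hscale]
  ring

end Fermat.Agent.LT.T1.H729
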