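import Mathlib
import Fermat.Agent.LT.H556.A0
import Fermat.Agent.LT.T1.Spec
import Fermat.Agent.LT.T1.H729.AdNorm

/-!
# Row LT, tower T1, leaf T1.14 (helper729): the ray idele and the open box

OFF-MAIN.

* `rayIdele729 K s hs : (Adl K)ˣ` : the idele with components of norm `s > 0` at the infinite places
  (the image of the real number `s`) and `1` at the finite places; `adNorm = s ^ [K : ℚ]`.
* `InBox729 K s a` : `a_v ∈ 𝒪_v` at the finite places and `‖a_w‖ < s` at the infinite places.
-/

set_option autoImplicit false

open IsDedekindDomain NumberField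
open Fermat.Agent.LT.H556.A0

noncomputable section

namespace Fermat.Agent.LT.T1.H729

set_option linter.unusedSectionVars false

variable (K : Type) [Field K] [NumberField K]

/-- The norm of an element of the completion at an infinite place is the absolute value of its
image under the extension embedding. -/
theorem norm_eq_norm_extEmb729 (w : InfinitePlace K) (x : w.Completion) :
    ‖x‖ = ‖InfinitePlace.Completion.extensionEmbedding w x‖ := by
  have h := (InfinitePlace.Completion.isometry_extensionEmbedding w).norm_map_of_map_zero
    (map_zero _) x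
  exact h.symm

/-- The element of the completion at `w` which is the real number `s`. -/
def realAt729 (w : InfinitePlace K) (s : ℝ) : w.Completion :=
  (exists_extEmb_eq_ofReal729 w s).choose

theorem extEmb_realAt729 (w : InfinitePlace K) (s : ℝ) :
    InfinitePlace.Completion.extensionEmbedding w (realAt729 K w s) = (s : ℂ) :=
  (exists_extEmb_eq_ofReal729 w s).choose_spec

theorem norm_realAt729 (w : InfinitePlace K) (s : ℝ) : ‖realAt729 K w s‖ = |s| := by
  rw [norm_eq_norm_extEmb729, extEmb_realAt729, Complex.norm_real, Real.norm_eq_abs]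

theorem realAt_mul729 (w : InfinitePlace K) (s t : ℝ) :
    realAt729 K w s * realAt729 K w t = realAt729 K w (s * t) := by
  apply (InfinitePlace.Completion.extensionEmbedding w).injective
  rw [map_mul, extEmb_realAt729, extEmb_realAt729, extEmb_realAt729]
  push_cast
  rfl

theorem realAt_one729 (w : InfinitePlace K) : realAt729 K w 1 = 1 := by
  apply (InfinitePlace.Completion.extensionEmbedding w).injective
  rw [extEmb_realAt729, map_one]
  push_cast
  rfl

/-- The adele with components `s` at the infinite places and `1` at the finite places. -/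
def rayAdele729 (s : ℝ) : Adl K := ((fun w => realAt729 K w s), 1)

theorem rayAdele_mul729 (s t : ℝ) : rayAdele729 K s * rayAdele729 K t = rayAdele729 K (s * t) := by
  refine adl_ext729 (fun w => ?_) (fun v => ?_)
  · exact realAt_mul729 K w s t
  · change (1 : v.adicCompletion K) * 1 = 1
    rw [one_mul]

theorem rayAdele_one729 : rayAdele729 K 1 = 1 := by
  refine adl_ext729 (fun w => ?_) (fun v => ?_)
  · exact realAt_one729 K w
  · rfl

/-- The ray idele of parameter `s > 0`. -/
def rayIdele729 (s : ℝ) (hs : 0 < s) : (Adl K)ˣ where
  val := rayAdele729 K s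
  inv := rayAdele729 K s⁻¹
  val_inv := by rw [rayAdele_mul729, mul_inv_cancel₀ hs.ne', rayAdele_one729]
  inv_val := by rw [rayAdele_mul729, inv_mul_cancel₀ hs.ne', rayAdele_one729]

@[simp] theorem rayIdele_inf729 (s : ℝ) (hs : 0 < s) (w : InfinitePlace K) :
    ((rayIdele729 K s hs : (Adl K)ˣ) : Adl K).1 w = realAt729 K w s := rfl

@[simp] theorem rayIdele_fin729 (s : ℝ) (hs : 0 < s) (v : HeightOneSpectrum (𝓞 K)) :
    ((rayIdele729 K s hs : (Adl K)ˣ) : Adl K).2 v = 1 := rfl

/-- The module of the ray idele. -/
theorem adNorm_rayIdele729 (s : ℝ) (hs : 0 < s) :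
    Fermat.Agent.LT.T1.adNorm K ((rayIdele729 K s hs : (Adl K)ˣ) : Adl K) =
      s ^ Module.finrank ℚ K := by
  unfold Fermat.Agent.LT.T1.adNorm
  simp only [rayIdele_inf729, rayIdele_fin729, norm_realAt729, abs_of_pos hs, norm_one,
    finprod_one, mul_one]
  rw [Finset.prod_pow_eq_pow_sum, InfinitePlace.sum_mult_eq]

end Fermat.Agent.LT.T1.H729
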