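import Mathlib
import Fermat.Agent.LT.H556.A0
import Fermat.Agent.LT.T1.Spec
import Fermat.Agent.LT.T1.H729.Red.Ray

/-!
# Row LT, tower T1, leaf T1.14 (helper729): the open box of the adele ring

OFF-MAIN.

* `InBox729 K s a` : `a_v ∈ 𝒪_v` at the finite places and `‖a_w‖ < s` at the infinite places.
* `exists_box729` : an open set of positive finite Haar measure inside the box of size `1`.
-/

set_option autoImplicit false

open IsDedekindDomain NumberField MeasureTheory
open Fermat.Agent.LT.H556.A0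

noncomputable section

namespace Fermat.Agent.LT.T1.H729

set_option linter.unusedSectionVars false

variable (K : Type) [Field K] [NumberField K]

/-- The box of size `s`. -/
def InBox729 (s : ℝ) (a : Adl K) : Prop :=
  (∀ v : HeightOneSpectrum (𝓞 K), a.2 v ∈ v.adicCompletionIntegers K) ∧
    ∀ w : InfinitePlace K, ‖a.1 w‖ < s

theorem isOpen_inBox729 (s : ℝ) : IsOpen {a : Adl K | InBox729 K s a} := by
  have h1 : IsOpen {x : InfiniteAdeleRing K | ∀ w : InfinitePlace K, ‖x w‖ < s} := by
    have : {x : InfiniteAdeleRing K | ∀ w : InfinitePlace K, ‖x w‖ < s}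
        = ⋂ w : InfinitePlace K, (fun x : InfiniteAdeleRing K => x w) ⁻¹' {y | ‖y‖ < s} := by
      ext x; simp
    rw [this]
    refine isOpen_iInter_of_finite fun w => ?_
    exact (isOpen_lt continuous_norm continuous_const).preimage (continuous_apply w)
  have h2 : IsOpen {f : FiniteAdeleRing (𝓞 K) K |
      ∀ v : HeightOneSpectrum (𝓞 K), f v ∈ v.adicCompletionIntegers K} :=
    RestrictedProduct.isOpen_forall_mem (fun v => Valued.isOpen_valuationSubring _)
  have : {a : Adl K | InBox729 K s a} =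
      (Prod.snd ⁻¹' {f : FiniteAdeleRing (𝓞 K) K |
        ∀ v : HeightOneSpectrum (𝓞 K), f v ∈ v.adicCompletionIntegers K}) ∩
      (Prod.fst ⁻¹' {x : InfiniteAdeleRing K | ∀ w : InfinitePlace K, ‖x w‖ < s}) := by
    ext a
    rfl
  rw [this]
  exact (h2.preimage continuous_snd).inter (h1.preimage continuous_fst)

theorem inBox_zero729 {s : ℝ} (hs : 0 < s) : InBox729 K s (0 : Adl K) := by
  refine ⟨fun v => ?_, fun w => ?_⟩
  · exact zero_mem _
  · change ‖(0 : w.Completion)‖ < s
    rw [norm_zero]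
    exact hs

/-- Differences of elements of the box of size `s` are in the box of size `2 s`. -/
theorem inBox_sub729 {s : ℝ} {a a' : Adl K} (ha : InBox729 K s a) (ha' : InBox729 K s a') :
    InBox729 K (2 * s) (a' - a) := by
  refine ⟨fun v => ?_, fun w => ?_⟩
  · have : (a' - a).2 v = a'.2 v - a.2 v := map_sub (projFin729 v) a' a
    rw [this]
    exact sub_mem (ha'.1 v) (ha.1 v)
  · have : (a' - a).1 w = a'.1 w - a.1 w := map_sub (projInf729 w) a' a
    rw [this]
    calc ‖a'.1 w - a.1 w‖ ≤ ‖a'.1 w‖ + ‖a.1 w‖ := norm_sub_le _ _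
      _ < s + s := add_lt_add (ha'.2 w) (ha.2 w)
      _ = 2 * s := by ring

/-- Multiplication by the ray idele of parameter `s` maps the box of size `1` into the box of size
`s`. -/
theorem inBox_ray_mul729 {s : ℝ} (hs : 0 < s) {a : Adl K} (ha : InBox729 K 1 a) :
    InBox729 K s (((rayIdele729 K s hs : (Adl K)ˣ) : Adl K) * a) := by
  refine ⟨fun v => ?_, fun w => ?_⟩
  · have : (((rayIdele729 K s hs : (Adl K)ˣ) : Adl K) * a).2 v =
        ((rayIdele729 K s hs : (Adl K)ˣ) : Adl K).2 v * a.2 v :=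
      map_mul (projFin729 v) _ _
    rw [this, rayIdele_fin729, one_mul]
    exact ha.1 v
  · have : (((rayIdele729 K s hs : (Adl K)ˣ) : Adl K) * a).1 w =
        ((rayIdele729 K s hs : (Adl K)ˣ) : Adl K).1 w * a.1 w :=
      map_mul (projInf729 w) _ _
    rw [this, rayIdele_inf729, norm_mul, norm_realAt729, abs_of_pos hs]
    calc s * ‖a.1 w‖ < s * 1 := mul_lt_mul_of_pos_left (ha.2 w) hs
      _ = s := mul_one s

/-- An open subset of the box of size one, of positive and finite Haar measure. -/
theorem exists_box729 [LocallyCompactSpace (Adl K)] [MeasurableSpace (Adl K)]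
    [BorelSpace (Adl K)] (μ : Measure (Adl K)) [μ.IsAddHaarMeasure] :
    ∃ I : Set (Adl K), IsOpen I ∧ μ I ≠ 0 ∧ μ I ≠ ⊤ ∧ ∀ a ∈ I, InBox729 K 1 a := by
  obtain ⟨C, hC, hC0⟩ := exists_compact_mem_nhds (0 : Adl K)
  refine ⟨{a : Adl K | InBox729 K 1 a} ∩ interior C, (isOpen_inBox729 K 1).inter isOpen_interior,
    ?_, ?_, fun a ha => ha.1⟩
  · have hne : ({a : Adl K | InBox729 K 1 a} ∩ interior C).Nonempty :=
      ⟨0, inBox_zero729 K one_pos, mem_interior_iff_mem_nhds.mpr hC0⟩
    exact (((isOpen_inBox729 K 1).inter isOpen_interior).measure_pos μ hne).ne'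
  · have h1 : μ ({a : Adl K | InBox729 K 1 a} ∩ interior C) ≤ μ C :=
      measure_mono (Set.inter_subset_right.trans interior_subset)
    exact (h1.trans_lt hC.measure_lt_top).ne

end Fermat.Agent.LT.T1.H729
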