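import Mathlib
import Fermat.Agent.LT.H556.A0
import Fermat.Agent.LT.T1.Spec
import Fermat.Agent.LT.T1.H729.AdNormCont
import Fermat.Agent.LT.T1.H729.Red.Ray

/-!
# Row LT, tower T1, leaf T1.14 (helper729): the standard compact subgroup `K⁰`

OFF-MAIN.  For `T1.IsStdCompact` of `LT/T1/Spec.lean`:

* `finComp_mul729`, `infComp_mul729` : local components are multiplicative;
* `isStdCompact_mul729`, `isStdCompact_inv729` : `K⁰` is a subgroup;
* `norm_entry_fin_le_one729`, `norm_entry_inf_le_one729` : entries of `k ∈ K⁰` have norm `≤ 1`;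
* `adNorm_det_stdCompact729` : `‖det k‖ = 1`.
-/

set_option autoImplicit false

open IsDedekindDomain NumberField
open Fermat.Agent.LT.H556.A0

noncomputable section

namespace Fermat.Agent.LT.T1.H729

set_option linter.unusedSectionVars false

variable (K : Type) [Field K] [NumberField K]

/-- The component at an infinite place, with values in `ℂ`, as a ring homomorphism. -/
def projInfC729 (w : InfinitePlace K) : Adl K →+* ℂ :=
  (InfinitePlace.Completion.extensionEmbedding w).comp (projInf729 w)

theorem finComp_eq_map729 (v : HeightOneSpectrum (𝓞 K)) (g : G K) :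
    finComp v g = (projFin729 v).mapMatrix (g : Matrix (Fin 2) (Fin 2) (Adl K)) := rfl

theorem infComp_eq_map729 (w : InfinitePlace K) (g : G K) :
    infComp w g = (projInfC729 K w).mapMatrix (g : Matrix (Fin 2) (Fin 2) (Adl K)) := rfl

theorem finComp_mul729 (v : HeightOneSpectrum (𝓞 K)) (g h : G K) :
    finComp v (g * h) = finComp v g * finComp v h := by
  rw [finComp_eq_map729, finComp_eq_map729, finComp_eq_map729, Units.val_mul, map_mul]

theorem infComp_mul729 (w : InfinitePlace K) (g h : G K) :
    infComp w (g * h) = infComp w g * infComp w h := by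
  rw [infComp_eq_map729, infComp_eq_map729, infComp_eq_map729, Units.val_mul, map_mul]

theorem finComp_one729 (v : HeightOneSpectrum (𝓞 K)) : finComp v (1 : G K) = 1 := by
  rw [finComp_eq_map729, Units.val_one, map_one]

theorem infComp_one729 (w : InfinitePlace K) : infComp w (1 : G K) = 1 := by
  rw [infComp_eq_map729, Units.val_one, map_one]

theorem infComp_mul_inv729 (w : InfinitePlace K) (g : G K) :
    infComp w g * infComp w g⁻¹ = 1 := by
  rw [← infComp_mul729, mul_inv_cancel, infComp_one729]

theorem finComp_mul_inv729 (v : HeightOneSpectrum (𝓞 K)) (g : G K) :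
    finComp v g * finComp v g⁻¹ = 1 := by
  rw [← finComp_mul729, mul_inv_cancel, finComp_one729]

/-- Products of integral matrices are integral. -/
theorem isIntegralAt_mul729 (v : HeightOneSpectrum (𝓞 K)) {g h : G K}
    (hg : IsIntegralAt v g) (hh : IsIntegralAt v h) : IsIntegralAt v (g * h) := by
  intro i j
  rw [finComp_mul729, Matrix.mul_apply]
  exact sum_mem fun l _ => mul_mem (hg i l) (hh l j)

/-- `K⁰` is closed under inversion. -/
theorem isStdCompact_inv729 {k : G K} (hk : Fermat.Agent.LT.T1.IsStdCompact K k) :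
    Fermat.Agent.LT.T1.IsStdCompact K k⁻¹ := by
  refine ⟨fun v => ⟨(hk.1 v).2, by rw [inv_inv]; exact (hk.1 v).1⟩, fun w => ?_⟩
  obtain ⟨hU, hD⟩ := hk.2 w
  have hinv : infComp w k⁻¹ = (infComp w k).conjTranspose := by
    have h1 := infComp_mul_inv729 K w k
    -- `U * X = 1` and `U * Uᴴ = 1` give `X = Uᴴ`
    have h2 : (infComp w k).conjTranspose * infComp w k = 1 := mul_eq_one_comm.mp hU
    calc infComp w k⁻¹ = ((infComp w k).conjTranspose * infComp w k) * infComp w k⁻¹ := by
          rw [h2, one_mul]
      _ = (infComp w k).conjTranspose * (infComp w k * infComp w k⁻¹) := by rw [mul_assoc]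
      _ = (infComp w k).conjTranspose := by rw [h1, mul_one]
  refine ⟨?_, fun hw => ?_⟩
  · rw [hinv, Matrix.conjTranspose_conjTranspose]
    exact mul_eq_one_comm.mp hU
  · have h1 := congrArg Matrix.det (infComp_mul_inv729 K w k)
    rw [Matrix.det_mul, hD hw, one_mul, Matrix.det_one] at h1
    exact h1

/-- `K⁰` is closed under multiplication. -/
theorem isStdCompact_mul729 {k k' : G K} (hk : Fermat.Agent.LT.T1.IsStdCompact K k)
    (hk' : Fermat.Agent.LT.T1.IsStdCompact K k') :
    Fermat.Agent.LT.T1.IsStdCompact K (k * k') := by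
  refine ⟨fun v => ⟨isIntegralAt_mul729 K v (hk.1 v).1 (hk'.1 v).1, ?_⟩, fun w => ⟨?_, fun hw => ?_⟩⟩
  · rw [mul_inv_rev]
    exact isIntegralAt_mul729 K v (hk'.1 v).2 (hk.1 v).2
  · rw [infComp_mul729, Matrix.conjTranspose_mul, mul_assoc,
      ← mul_assoc (infComp w k') _ _, (hk'.2 w).1, one_mul, (hk.2 w).1]
  · rw [infComp_mul729, Matrix.det_mul, (hk.2 w).2 hw, (hk'.2 w).2 hw, one_mul]

/-- Integral elements have norm at most one. -/
theorem norm_fin_le_one729 (v : HeightOneSpectrum (𝓞 K)) (x : v.adicCompletion K)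
    (h : x ∈ v.adicCompletionIntegers K) : ‖x‖ ≤ 1 := by
  rw [HeightOneSpectrum.mem_adicCompletionIntegers] at h
  exact Valued.toNormedField.norm_le_one_iff.mpr h

/-- Entries of a unitary matrix have absolute value at most one. -/
theorem norm_entry_unitary_le_one729 (U : Matrix (Fin 2) (Fin 2) ℂ)
    (hU : U * U.conjTranspose = 1) (i j : Fin 2) : ‖U i j‖ ≤ 1 := by
  have h := congrFun (congrFun hU i) i
  rw [Matrix.mul_apply, Fin.sum_univ_two, Matrix.one_apply_eq] at h
  simp only [Matrix.conjTranspose_apply, Complex.star_def, Complex.mul_conj] at h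
  have h' : Complex.normSq (U i 0) + Complex.normSq (U i 1) = 1 := by exact_mod_cast h
  have h0 := Complex.normSq_nonneg (U i 0)
  have h1 := Complex.normSq_nonneg (U i 1)
  have hle : Complex.normSq (U i j) ≤ 1 := by
    fin_cases j
    · change Complex.normSq (U i 0) ≤ 1
      linarith
    · change Complex.normSq (U i 1) ≤ 1
      linarith
  rw [Complex.normSq_eq_norm_sq] at hle
  have hn := norm_nonneg (U i j)
  nlinarith

/-- The determinant of a unitary matrix has absolute value one. -/
theorem norm_det_unitary729 (U : Matrix (Fin 2) (Fin 2) ℂ) (hU : U * U.conjTranspose = 1) :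
    ‖U.det‖ = 1 := by
  have h := congrArg Matrix.det hU
  rw [Matrix.det_mul, Matrix.det_conjTranspose, Matrix.det_one, Complex.star_def,
    Complex.mul_conj] at h
  have h' : Complex.normSq U.det = 1 := by exact_mod_cast h
  rw [Complex.normSq_eq_norm_sq] at h'
  have hn := norm_nonneg U.det
  nlinarith

/-- The module of the determinant of an element of `K⁰` is one. -/
theorem adNorm_det_stdCompact729 {k : G K} (hk : Fermat.Agent.LT.T1.IsStdCompact K k) :
    Fermat.Agent.LT.T1.adNorm K (Matrix.det (k : Matrix (Fin 2) (Fin 2) (Adl K))) = 1 := by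
  apply adNorm_eq_one729
  · intro w
    rw [norm_eq_norm_extEmb729]
    have h1 : InfinitePlace.Completion.extensionEmbedding w
        ((Matrix.det (k : Matrix (Fin 2) (Fin 2) (Adl K))).1 w) = (infComp w k).det := by
      rw [infComp_eq_map729]
      change (projInfC729 K w) (Matrix.det (k : Matrix (Fin 2) (Fin 2) (Adl K))) = _
      rw [RingHom.map_det]
    rw [h1]
    exact norm_det_unitary729 _ (hk.2 w).1
  · intro v
    have h1 : (Matrix.det (k : Matrix (Fin 2) (Fin 2) (Adl K))).2 v = (finComp v k).det := by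
      rw [finComp_eq_map729]
      change (projFin729 v) (Matrix.det (k : Matrix (Fin 2) (Fin 2) (Adl K))) = _
      rw [RingHom.map_det]
    rw [h1]
    have hdet_mem : ∀ M : Matrix (Fin 2) (Fin 2) (v.adicCompletion K),
        (∀ i j, M i j ∈ v.adicCompletionIntegers K) → M.det ∈ v.adicCompletionIntegers K := by
      intro M hM
      rw [Matrix.det_fin_two]
      exact sub_mem (mul_mem (hM 0 0) (hM 1 1)) (mul_mem (hM 0 1) (hM 1 0))
    refine norm_eq_one_of_mem_of_inv_mem729 K v _ (finComp v k⁻¹).det
      (hdet_mem _ (hk.1 v).1) (hdet_mem _ (hk.1 v).2) ?_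
    rw [← Matrix.det_mul, finComp_mul_inv729, Matrix.det_one]

end Fermat.Agent.LT.T1.H729
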