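import Mathlib
import Fermat.Agent.LT.H556.A0
import Fermat.Agent.LT.T1.Spec
import Fermat.Agent.LT.T1.H729.Red.StdCompact
import Fermat.Agent.LT.T1.H729.Red.Box

/-!
# Row LT, tower T1, leaf T1.14 (helper729): auxiliary lemmas for the reduction theorem

OFF-MAIN.

* `ScaleC729 K` : the scaling of Haar measures of `𝔸_K` by the module (asset SCALE, helper849).
* `countable_princ729` : the principal adeles are countable.
* `isUnit_diag_of_isUpper729` : diagonal entries of an upper triangular element of `GL₂(𝔸_K)`.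
* `adNorm_le_pow729` : `‖y‖_𝔸 ≤ R ^ [K : ℚ]` for an idele `y` in the closed box of size `R`.
* `exists_gl2_row729` : a non-zero row over `K` is the bottom row of an element of `GL₂(K)`.
-/

set_option autoImplicit false

open IsDedekindDomain NumberField MeasureTheory
open Fermat.Agent.LT.H556.A0

noncomputable section

namespace Fermat.Agent.LT.T1.H729

set_option linter.unusedSectionVars false

variable (K : Type) [Field K] [NumberField K]

/-- **Asset SCALE**: Haar measures of `𝔸_K` scale by the module under multiplication by ideles. -/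
def ScaleC729 : Prop :=
  letI : MeasurableSpace (Adl K) := borel (Adl K)
  ∀ μ : Measure (Adl K), μ.IsAddHaarMeasure → ∀ (x : (Adl K)ˣ) (X : Set (Adl K)),
    μ ((fun a : Adl K => (x : Adl K) * a) '' X) =
      ENNReal.ofReal (Fermat.Agent.LT.T1.adNorm K (x : Adl K)) * μ X

theorem countable_numberField729 : Countable K :=
  (Module.finBasis ℚ K).equivFun.toEquiv.injective.countable

theorem countable_princ729 : Countable (Fermat.Agent.LT.T1.princ K) := by
  have := countable_numberField729 K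
  have hsurj : Function.Surjective
      (fun x : K => (⟨algebraMap K (Adl K) x, ⟨x, rfl⟩⟩ : Fermat.Agent.LT.T1.princ K)) := by
    rintro ⟨y, x, rfl⟩
    exact ⟨x, rfl⟩
  exact hsurj.countable

/-- The diagonal entries of an upper triangular element of `GL₂(𝔸_K)` are ideles. -/
theorem isUnit_diag_of_isUpper729 {b : G K} (hb : Fermat.Agent.LT.T1.IsUpper K b) :
    IsUnit ((b : Matrix (Fin 2) (Fin 2) (Adl K)) 0 0) ∧
      IsUnit ((b : Matrix (Fin 2) (Fin 2) (Adl K)) 1 1) := by
  have hdet : IsUnit (Matrix.det (b : Matrix (Fin 2) (Fin 2) (Adl K))) :=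
    (Matrix.isUnit_iff_isUnit_det _).mp b.isUnit
  have hb' : (b : Matrix (Fin 2) (Fin 2) (Adl K)) 1 0 = 0 := hb
  rw [Matrix.det_fin_two, hb', mul_zero, sub_zero] at hdet
  exact ⟨isUnit_of_mul_isUnit_left hdet, isUnit_of_mul_isUnit_right hdet⟩

/-- The determinant of an upper triangular matrix. -/
theorem det_of_isUpper729 {b : G K} (hb : Fermat.Agent.LT.T1.IsUpper K b) :
    Matrix.det (b : Matrix (Fin 2) (Fin 2) (Adl K)) =
      (b : Matrix (Fin 2) (Fin 2) (Adl K)) 0 0 * (b : Matrix (Fin 2) (Fin 2) (Adl K)) 1 1 := by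
  have hb' : (b : Matrix (Fin 2) (Fin 2) (Adl K)) 1 0 = 0 := hb
  rw [Matrix.det_fin_two, hb', mul_zero, sub_zero]

/-- The module of an idele in the closed box of size `R`. -/
theorem adNorm_le_pow729 (y : (Adl K)ˣ) (R : ℝ)
    (hfin : ∀ v : HeightOneSpectrum (𝓞 K), ‖(y : Adl K).2 v‖ ≤ 1)
    (hinf : ∀ w : InfinitePlace K, ‖(y : Adl K).1 w‖ ≤ R) :
    Fermat.Agent.LT.T1.adNorm K (y : Adl K) ≤ R ^ Module.finrank ℚ K := by
  unfold Fermat.Agent.LT.T1.adNorm
  have h1 : ∏ w : InfinitePlace K, ‖(y : Adl K).1 w‖ ^ w.mult ≤ R ^ Module.finrank ℚ K := by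
    calc ∏ w : InfinitePlace K, ‖(y : Adl K).1 w‖ ^ w.mult
        ≤ ∏ w : InfinitePlace K, R ^ w.mult :=
          Finset.prod_le_prod (fun w _ => pow_nonneg (norm_nonneg _) _)
            (fun w _ => pow_le_pow_left₀ (norm_nonneg _) (hinf w) _)
      _ = R ^ Module.finrank ℚ K := by
          rw [Finset.prod_pow_eq_pow_sum, InfinitePlace.sum_mult_eq]
  have h2 : ∏ᶠ v : HeightOneSpectrum (𝓞 K), ‖(y : Adl K).2 v‖ ≤ 1 := by
    rw [finprod_eq_prod _ (finite_mulSupport_fin729 K y)]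
    exact Finset.prod_le_one (fun v _ => norm_nonneg _) (fun v _ => hfin v)
  have h0 : 0 ≤ ∏ w : InfinitePlace K, ‖(y : Adl K).1 w‖ ^ w.mult :=
    Finset.prod_nonneg fun w _ => pow_nonneg (norm_nonneg _) _
  have h3 : 0 ≤ ∏ᶠ v : HeightOneSpectrum (𝓞 K), ‖(y : Adl K).2 v‖ := by
    rw [finprod_eq_prod _ (finite_mulSupport_fin729 K y)]
    exact Finset.prod_nonneg fun v _ => norm_nonneg _
  calc (∏ w : InfinitePlace K, ‖(y : Adl K).1 w‖ ^ w.mult) *
        ∏ᶠ v : HeightOneSpectrum (𝓞 K), ‖(y : Adl K).2 v‖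
      ≤ (∏ w : InfinitePlace K, ‖(y : Adl K).1 w‖ ^ w.mult) * 1 :=
        mul_le_mul_of_nonneg_left h2 h0
    _ = ∏ w : InfinitePlace K, ‖(y : Adl K).1 w‖ ^ w.mult := mul_one _
    _ ≤ R ^ Module.finrank ℚ K := h1

/-- A non-zero row over `K` is the bottom row of an element of `GL₂(K)`. -/
theorem exists_gl2_row729 (c d : K) (h : c ≠ 0 ∨ d ≠ 0) :
    ∃ γ : GL (Fin 2) K, (γ : Matrix (Fin 2) (Fin 2) K) 1 0 = c ∧
      (γ : Matrix (Fin 2) (Fin 2) K) 1 1 = d := by
  by_cases hd : d = 0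
  · have hc : c ≠ 0 := h.resolve_right (not_not.mpr hd)
    have hdet : (!![0, 1; c, 0] : Matrix (Fin 2) (Fin 2) K).det ≠ 0 := by
      rw [Matrix.det_fin_two_of]
      simpa using hc
    refine ⟨Matrix.GeneralLinearGroup.mkOfDetNeZero _ hdet, ?_, ?_⟩
    · simp [Matrix.GeneralLinearGroup.mkOfDetNeZero]
    · simp [Matrix.GeneralLinearGroup.mkOfDetNeZero, hd]
  · have hdet : (!![1, 0; c, d] : Matrix (Fin 2) (Fin 2) K).det ≠ 0 := by
      rw [Matrix.det_fin_two_of]
      simpa using hd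
    refine ⟨Matrix.GeneralLinearGroup.mkOfDetNeZero _ hdet, ?_, ?_⟩
    · simp [Matrix.GeneralLinearGroup.mkOfDetNeZero]
    · simp [Matrix.GeneralLinearGroup.mkOfDetNeZero]

end Fermat.Agent.LT.T1.H729
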