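import Mathlib
import Fermat.Agent.LT.H556.A0
import Fermat.Agent.LT.T1.Spec
import Fermat.Agent.LT.T1.H729.Red.Tools
import Fermat.Agent.LT.T1.H729.Red.Blichfeldt2
import Fermat.Agent.LT.T1.H729.Red.ShearMeasure

/-!
# Row LT, tower T1, leaf T1.14 (helper729): the adelic Minkowski step

OFF-MAIN.  `exists_small_row729` : for ideles `u₁`, `u₂` and an adele `x` there are `(c, d) ≠ 0` in
`K²` and `lam > 0` with `lam ^ (2 n) = 2 vol(D)² ‖u₁‖ ‖u₂‖ / vol(I)²` such that `c u₁` and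
`c x + d u₂` lie in the box of size `2 lam`.
-/

set_option autoImplicit false

open IsDedekindDomain NumberField MeasureTheory
open Fermat.Agent.LT.H556.A0

noncomputable section

namespace Fermat.Agent.LT.T1.H729

set_option linter.unusedSectionVars false

variable (K : Type) [Field K] [NumberField K]

theorem adNorm_one729 : Fermat.Agent.LT.T1.adNorm K (1 : Adl K) = 1 := by
  have h := adNorm_mul729 K 1 1
  have hp := adNorm_pos729 K 1
  rw [mul_one, Units.val_one] at h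
  have h2 : Fermat.Agent.LT.T1.adNorm K (1 : Adl K) *
      (Fermat.Agent.LT.T1.adNorm K (1 : Adl K) - 1) = 0 := by
    rw [mul_sub, mul_one, ← h, sub_self]
  rcases mul_eq_zero.mp h2 with h3 | h3
  · rw [Units.val_one] at hp
    exact absurd h3 hp.ne'
  · exact sub_eq_zero.mp h3

theorem adNorm_inv729 (u : (Adl K)ˣ) :
    Fermat.Agent.LT.T1.adNorm K ((u⁻¹ : (Adl K)ˣ) : Adl K) =
      (Fermat.Agent.LT.T1.adNorm K (u : Adl K))⁻¹ := by
  have h := adNorm_mul729 K u u⁻¹
  rw [mul_inv_cancel, Units.val_one, adNorm_one729] at h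
  exact eq_inv_of_mul_eq_one_right h.symm

/-- Elements of the scaled box. -/
theorem inBox_of_mem_image729 {lam : ℝ} (hlam : 0 < lam) {I : Set (Adl K)}
    (hIbox : ∀ a ∈ I, InBox729 K 1 a) {y : Adl K}
    (hy : y ∈ (fun a : Adl K => ((rayIdele729 K lam hlam : (Adl K)ˣ) : Adl K) * a) '' I) :
    InBox729 K lam y := by
  obtain ⟨a, ha, rfl⟩ := hy
  exact inBox_ray_mul729 K hlam (hIbox a ha)

/-- **The adelic Minkowski step.** -/
theorem exists_small_row729 [LocallyCompactSpace (Adl K)] [SecondCountableTopology (Adl K)]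
    [MeasurableSpace (Adl K)] [BorelSpace (Adl K)]
    (μ : Measure (Adl K)) [μ.IsAddHaarMeasure]
    (hscale : ∀ (u : (Adl K)ˣ) (X : Set (Adl K)),
      μ ((fun a : Adl K => (u : Adl K) * a) '' X) =
        ENNReal.ofReal (Fermat.Agent.LT.T1.adNorm K (u : Adl K)) * μ X)
    {D : Set (Adl K)} (hDm : MeasurableSet D)
    (hD : IsAddFundamentalDomain (Fermat.Agent.LT.T1.princ K) D μ)
    (hD0 : μ D ≠ 0) (hDtop : μ D ≠ ⊤)
    {I : Set (Adl K)} (hIo : IsOpen I) (hI0 : μ I ≠ 0) (hItop : μ I ≠ ⊤)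
    (hIbox : ∀ a ∈ I, InBox729 K 1 a)
    (u₁ u₂ : (Adl K)ˣ) (x : Adl K) :
    ∃ (c d : K) (lam : ℝ), (c ≠ 0 ∨ d ≠ 0) ∧ 0 < lam ∧
      lam ^ (2 * Module.finrank ℚ K) =
        2 * (μ D).toReal ^ 2 * (Fermat.Agent.LT.T1.adNorm K (u₁ : Adl K) *
          Fermat.Agent.LT.T1.adNorm K (u₂ : Adl K)) / (μ I).toReal ^ 2 ∧
      InBox729 K (2 * lam) (algebraMap K (Adl K) c * (u₁ : Adl K)) ∧
      InBox729 K (2 * lam) (algebraMap K (Adl K) c * x + algebraMap K (Adl K) d * (u₂ : Adl K)) := by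
  classical
  set n := Module.finrank ℚ K with hn
  have hnpos : 0 < n := Module.finrank_pos
  set P₁ := Fermat.Agent.LT.T1.adNorm K (u₁ : Adl K) with hP₁
  set P₂ := Fermat.Agent.LT.T1.adNorm K (u₂ : Adl K) with hP₂
  have hP₁pos : 0 < P₁ := adNorm_pos729 K u₁
  have hP₂pos : 0 < P₂ := adNorm_pos729 K u₂
  set dd := (μ D).toReal with hdd
  set ii := (μ I).toReal with hii
  have hddpos : 0 < dd := ENNReal.toReal_pos hD0 hDtop
  have hiipos : 0 < ii := ENNReal.toReal_pos hI0 hItop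
  set T := 2 * dd ^ 2 * (P₁ * P₂) / ii ^ 2 with hT
  have hTpos : 0 < T := by positivity
  set lam := T ^ (((2 * n : ℕ) : ℝ)⁻¹) with hlamdef
  have hlam : 0 < lam := Real.rpow_pos_of_pos hTpos _
  have hlampow : lam ^ (2 * n) = T :=
    Real.rpow_inv_natCast_pow hTpos.le (by omega)
  -- the scaled box
  set ray := rayIdele729 K lam hlam with hray
  set Il : Set (Adl K) := (fun a : Adl K => (ray : Adl K) * a) '' I with hIl
  have hIlopen : IsOpen Il := by
    have : Il = (fun r : Adl K => r * ((ray⁻¹ : (Adl K)ˣ) : Adl K)) ⁻¹' I := by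
      rw [hIl, preimage_mul_unit729, inv_inv]
    rw [this]
    exact hIo.preimage (continuous_id.mul continuous_const)
  have hIlmeas : MeasurableSet Il := hIlopen.measurableSet
  have hμIl : μ Il = ENNReal.ofReal (lam ^ n) * μ I := by
    rw [hIl, hscale, adNorm_rayIdele729]
  -- the sheared box and its measure
  have hSmeas := measurableSet_shearBox729 u₁ u₂ x hIlmeas
  have hSμ := measure_shearBox729 μ (fun u : (Adl K)ˣ => Fermat.Agent.LT.T1.adNorm K (u : Adl K))
    hscale u₁ u₂ x hIlmeas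
  have hlt : μ D * μ D < (μ.prod μ) (shearBox729 u₁ u₂ x Il) := by
    rw [hSμ, hμIl, adNorm_inv729, adNorm_inv729, ← ENNReal.ofReal_toReal hDtop,
      ← ENNReal.ofReal_toReal hItop, ← hdd, ← hii, ← hP₁, ← hP₂]
    have e1 : ENNReal.ofReal P₁⁻¹ * (ENNReal.ofReal (lam ^ n) * ENNReal.ofReal ii) *
        (ENNReal.ofReal P₂⁻¹ * (ENNReal.ofReal (lam ^ n) * ENNReal.ofReal ii)) =
        ENNReal.ofReal (P₁⁻¹ * (lam ^ n * ii) * (P₂⁻¹ * (lam ^ n * ii))) := by
      rw [ENNReal.ofReal_mul (by positivity), ENNReal.ofReal_mul (by positivity),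
        ENNReal.ofReal_mul (by positivity), ENNReal.ofReal_mul (by positivity),
        ENNReal.ofReal_mul (by positivity)]
    rw [e1, ← ENNReal.ofReal_mul hddpos.le]
    rw [ENNReal.ofReal_lt_ofReal_iff (by positivity)]
    have e2 : P₁⁻¹ * (lam ^ n * ii) * (P₂⁻¹ * (lam ^ n * ii)) = 2 * dd ^ 2 := by
      have : lam ^ n * lam ^ n = T := by rw [← pow_add, ← two_mul, hlampow]
      have hP₁ne := hP₁pos.ne'
      have hP₂ne := hP₂pos.ne'
      have hiine := hiipos.ne'
      calc P₁⁻¹ * (lam ^ n * ii) * (P₂⁻¹ * (lam ^ n * ii))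
          = (lam ^ n * lam ^ n) * (P₁⁻¹ * P₂⁻¹ * ii ^ 2) := by ring
        _ = T * (P₁⁻¹ * P₂⁻¹ * ii ^ 2) := by rw [this]
        _ = 2 * dd ^ 2 := by
            rw [hT]
            field_simp
    rw [e2]
    nlinarith
  -- Blichfeldt
  have := countable_princ729 K
  obtain ⟨ξ, η, hξ, hη, hne, s, hs, s', hs', h1, h2⟩ :=
    exists_lattice_diff729 μ (Fermat.Agent.LT.T1.princ K) hDm hD hSmeas hlt
  obtain ⟨c, rfl⟩ := hξ
  obtain ⟨d, rfl⟩ := hη
  have hξ' : ((algebraMap K (Adl K)).toAddMonoidHom c : Adl K) = algebraMap K (Adl K) c := rfl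
  have hη' : ((algebraMap K (Adl K)).toAddMonoidHom d : Adl K) = algebraMap K (Adl K) d := rfl
  rw [hξ'] at h1 hne
  rw [hη'] at h2 hne
  refine ⟨c, d, lam, ?_, hlam, hlampow, ?_, ?_⟩
  · rcases hne with h | h
    · exact Or.inl (fun h0 => h (by rw [h0, map_zero]))
    · exact Or.inr (fun h0 => h (by rw [h0, map_zero]))
  · have e : algebraMap K (Adl K) c * (u₁ : Adl K) = s'.1 * (u₁ : Adl K) - s.1 * (u₁ : Adl K) := by
      rw [h1]; ring
    rw [e]
    exact inBox_sub729 K (inBox_of_mem_image729 K hlam hIbox hs.1)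
      (inBox_of_mem_image729 K hlam hIbox hs'.1)
  · have e : algebraMap K (Adl K) c * x + algebraMap K (Adl K) d * (u₂ : Adl K) =
        (s'.1 * x + s'.2 * (u₂ : Adl K)) - (s.1 * x + s.2 * (u₂ : Adl K)) := by
      rw [h1, h2]; ring
    rw [e]
    exact inBox_sub729 K (inBox_of_mem_image729 K hlam hIbox hs.2)
      (inBox_of_mem_image729 K hlam hIbox hs'.2)

end Fermat.Agent.LT.T1.H729
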