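import Mathlib
import Fermat.Agent.LT.H556.A0
import Fermat.Agent.LT.T1.Spec
import Fermat.Agent.LT.T1.H729.Red.SmallRow

/-!
# Row LT, tower T1, leaf T1.14 (helper729): the height of `γ g` from a small row

OFF-MAIN.  `height_lower_bound729` : if `g = b k`, `γ ∈ GL₂(K)` has bottom row `(c, d)` with
`c b₀₀` and `c b₀₁ + d b₁₁` in the box of size `2 lam`, and `γ g = b' k'`, then
`‖b₀₀‖ ‖b₁₁‖ / (4 lam) ^ (2 n) ≤ ‖b'₀₀‖ / ‖b'₁₁‖`.
-/

set_option autoImplicit false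

open IsDedekindDomain NumberField MeasureTheory
open Fermat.Agent.LT.H556.A0

noncomputable section

namespace Fermat.Agent.LT.T1.H729

set_option linter.unusedSectionVars false

variable (K : Type) [Field K] [NumberField K]

/-- Multiplicativity of the module on elements known to be units. -/
theorem adNorm_mul_isUnit729 {x y : Adl K} (hx : IsUnit x) (hy : IsUnit y) :
    Fermat.Agent.LT.T1.adNorm K (x * y) =
      Fermat.Agent.LT.T1.adNorm K x * Fermat.Agent.LT.T1.adNorm K y := by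
  obtain ⟨ux, rfl⟩ := hx
  obtain ⟨uy, rfl⟩ := hy
  rw [← Units.val_mul]
  exact adNorm_mul729 K ux uy

/-- Product formula for a non-zero element of `K`. -/
theorem adNorm_algebraMap729 {ξ : K} (hξ : ξ ≠ 0) :
    Fermat.Agent.LT.T1.adNorm K (algebraMap K (Adl K) ξ) = 1 :=
  adNorm_ratUnit729 K (Units.mk0 ξ hξ)

theorem isUnit_algebraMap729 {ξ : K} (hξ : ξ ≠ 0) : IsUnit (algebraMap K (Adl K) ξ) :=
  (Units.mk0 ξ hξ).isUnit.map (algebraMap K (Adl K))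

/-- The matrix of `ratG γ`. -/
theorem ratG_apply729 (γ : GL (Fin 2) K) (i j : Fin 2) :
    ((Fermat.Agent.LT.T1.ratG K γ : G K) : Matrix (Fin 2) (Fin 2) (Adl K)) i j =
      algebraMap K (Adl K) ((γ : Matrix (Fin 2) (Fin 2) K) i j) := rfl

theorem det_ratG729 (γ : GL (Fin 2) K) :
    Matrix.det ((Fermat.Agent.LT.T1.ratG K γ : G K) : Matrix (Fin 2) (Fin 2) (Adl K)) =
      algebraMap K (Adl K) (Matrix.det (γ : Matrix (Fin 2) (Fin 2) K)) := by
  rw [Matrix.det_fin_two, Matrix.det_fin_two]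
  simp only [ratG_apply729, map_sub, map_mul]

/-- Entries of an element of `K⁰` have norm at most one at the infinite places. -/
theorem norm_entry_inf_le_one729 {κ : G K} (hκ : Fermat.Agent.LT.T1.IsStdCompact K κ)
    (w : InfinitePlace K) (i j : Fin 2) :
    ‖((κ : Matrix (Fin 2) (Fin 2) (Adl K)) i j).1 w‖ ≤ 1 := by
  rw [norm_eq_norm_extEmb729]
  exact norm_entry_unitary_le_one729 (infComp w κ) (hκ.2 w).1 i j

/-- **The height bound.** -/
theorem height_lower_bound729 (g b k : G K) (hb : Fermat.Agent.LT.T1.IsUpper K b)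
    (hk : Fermat.Agent.LT.T1.IsStdCompact K k) (hg : g = b * k)
    (γ : GL (Fin 2) K) (lam : ℝ) (hlam : 0 < lam)
    (hbox1 : InBox729 K (2 * lam)
      (algebraMap K (Adl K) ((γ : Matrix (Fin 2) (Fin 2) K) 1 0) *
        (b : Matrix (Fin 2) (Fin 2) (Adl K)) 0 0))
    (hbox2 : InBox729 K (2 * lam)
      (algebraMap K (Adl K) ((γ : Matrix (Fin 2) (Fin 2) K) 1 0) *
          (b : Matrix (Fin 2) (Fin 2) (Adl K)) 0 1 +
        algebraMap K (Adl K) ((γ : Matrix (Fin 2) (Fin 2) K) 1 1) *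
          (b : Matrix (Fin 2) (Fin 2) (Adl K)) 1 1))
    (b' k' : G K) (hb' : Fermat.Agent.LT.T1.IsUpper K b')
    (hk' : Fermat.Agent.LT.T1.IsStdCompact K k')
    (hg' : Fermat.Agent.LT.T1.ratG K γ * g = b' * k') :
    Fermat.Agent.LT.T1.adNorm K ((b : Matrix (Fin 2) (Fin 2) (Adl K)) 0 0) *
        Fermat.Agent.LT.T1.adNorm K ((b : Matrix (Fin 2) (Fin 2) (Adl K)) 1 1) /
        (4 * lam) ^ (2 * Module.finrank ℚ K) ≤
      Fermat.Agent.LT.T1.adNorm K ((b' : Matrix (Fin 2) (Fin 2) (Adl K)) 0 0) /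
        Fermat.Agent.LT.T1.adNorm K ((b' : Matrix (Fin 2) (Fin 2) (Adl K)) 1 1) := by
  set n := Module.finrank ℚ K with hn
  obtain ⟨hU₁, hU₂⟩ := isUnit_diag_of_isUpper729 K hb
  obtain ⟨hU₁', hU₂'⟩ := isUnit_diag_of_isUpper729 K hb'
  have hb10 : (b : Matrix (Fin 2) (Fin 2) (Adl K)) 1 0 = 0 := hb
  -- `κ = k k'⁻¹` and `b' = ratG γ * b * κ`
  set κ : G K := k * k'⁻¹ with hκdef
  have hκ : Fermat.Agent.LT.T1.IsStdCompact K κ :=
    isStdCompact_mul729 K hk (isStdCompact_inv729 K hk')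
  have hb'eq : b' = Fermat.Agent.LT.T1.ratG K γ * b * κ := by
    rw [hκdef, ← mul_assoc, mul_assoc (Fermat.Agent.LT.T1.ratG K γ) b k, ← hg, hg',
      mul_inv_cancel_right]
  -- the bottom row of `ratG γ * b`
  set ρ₁ : Adl K := algebraMap K (Adl K) ((γ : Matrix (Fin 2) (Fin 2) K) 1 0) *
    (b : Matrix (Fin 2) (Fin 2) (Adl K)) 0 0 with hρ₁
  set ρ₂ : Adl K := algebraMap K (Adl K) ((γ : Matrix (Fin 2) (Fin 2) K) 1 0) *
      (b : Matrix (Fin 2) (Fin 2) (Adl K)) 0 1 +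
    algebraMap K (Adl K) ((γ : Matrix (Fin 2) (Fin 2) K) 1 1) *
      (b : Matrix (Fin 2) (Fin 2) (Adl K)) 1 1 with hρ₂
  have hb'11 : (b' : Matrix (Fin 2) (Fin 2) (Adl K)) 1 1 =
      ρ₁ * (κ : Matrix (Fin 2) (Fin 2) (Adl K)) 0 1 +
        ρ₂ * (κ : Matrix (Fin 2) (Fin 2) (Adl K)) 1 1 := by
    rw [hb'eq, Units.val_mul, Units.val_mul, Matrix.mul_apply, Fin.sum_univ_two,
      Matrix.mul_apply, Fin.sum_univ_two, Matrix.mul_apply, Fin.sum_univ_two]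
    simp only [ratG_apply729, hb10, mul_zero, add_zero]
    rfl
  -- the bound for `‖b'₁₁‖`
  obtain ⟨U₂', hU₂'eq⟩ := hU₂'
  have hq : Fermat.Agent.LT.T1.adNorm K ((b' : Matrix (Fin 2) (Fin 2) (Adl K)) 1 1) ≤
      (4 * lam) ^ n := by
    rw [← hU₂'eq]
    refine adNorm_le_pow729 K U₂' (4 * lam) (fun v => ?_) (fun w => ?_)
    · rw [hU₂'eq, hb'11]
      apply norm_fin_le_one729
      have e : (ρ₁ * (κ : Matrix (Fin 2) (Fin 2) (Adl K)) 0 1 +
          ρ₂ * (κ : Matrix (Fin 2) (Fin 2) (Adl K)) 1 1).2 v =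
          ρ₁.2 v * ((κ : Matrix (Fin 2) (Fin 2) (Adl K)) 0 1).2 v +
            ρ₂.2 v * ((κ : Matrix (Fin 2) (Fin 2) (Adl K)) 1 1).2 v := by
        have := map_add (projFin729 v) (ρ₁ * (κ : Matrix (Fin 2) (Fin 2) (Adl K)) 0 1)
          (ρ₂ * (κ : Matrix (Fin 2) (Fin 2) (Adl K)) 1 1)
        rw [map_mul, map_mul] at this
        exact this
      rw [e]
      exact add_mem (mul_mem (hbox1.1 v) ((hκ.1 v).1 0 1)) (mul_mem (hbox2.1 v) ((hκ.1 v).1 1 1))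
    · rw [hU₂'eq, hb'11]
      have e : (ρ₁ * (κ : Matrix (Fin 2) (Fin 2) (Adl K)) 0 1 +
          ρ₂ * (κ : Matrix (Fin 2) (Fin 2) (Adl K)) 1 1).1 w =
          ρ₁.1 w * ((κ : Matrix (Fin 2) (Fin 2) (Adl K)) 0 1).1 w +
            ρ₂.1 w * ((κ : Matrix (Fin 2) (Fin 2) (Adl K)) 1 1).1 w := by
        have := map_add (projInf729 w) (ρ₁ * (κ : Matrix (Fin 2) (Fin 2) (Adl K)) 0 1)
          (ρ₂ * (κ : Matrix (Fin 2) (Fin 2) (Adl K)) 1 1)
        rw [map_mul, map_mul] at this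
        exact this
      rw [e]
      have hκ01 := norm_entry_inf_le_one729 K hκ w 0 1
      have hκ11 := norm_entry_inf_le_one729 K hκ w 1 1
      have hρ₁w := (hbox1.2 w).le
      have hρ₂w := (hbox2.2 w).le
      calc ‖ρ₁.1 w * ((κ : Matrix (Fin 2) (Fin 2) (Adl K)) 0 1).1 w +
            ρ₂.1 w * ((κ : Matrix (Fin 2) (Fin 2) (Adl K)) 1 1).1 w‖
          ≤ ‖ρ₁.1 w * ((κ : Matrix (Fin 2) (Fin 2) (Adl K)) 0 1).1 w‖ +
            ‖ρ₂.1 w * ((κ : Matrix (Fin 2) (Fin 2) (Adl K)) 1 1).1 w‖ := norm_add_le _ _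
        _ = ‖ρ₁.1 w‖ * ‖((κ : Matrix (Fin 2) (Fin 2) (Adl K)) 0 1).1 w‖ +
            ‖ρ₂.1 w‖ * ‖((κ : Matrix (Fin 2) (Fin 2) (Adl K)) 1 1).1 w‖ := by
            rw [norm_mul, norm_mul]
        _ ≤ 2 * lam * 1 + 2 * lam * 1 :=
            add_le_add (mul_le_mul hρ₁w hκ01 (norm_nonneg _) (by positivity))
              (mul_le_mul hρ₂w hκ11 (norm_nonneg _) (by positivity))
        _ = 4 * lam := by ring
  -- the determinant relation
  have hγdet : Matrix.det (γ : Matrix (Fin 2) (Fin 2) K) ≠ 0 :=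
    ((Matrix.isUnit_iff_isUnit_det _).mp γ.isUnit).ne_zero
  have hdetk : IsUnit (Matrix.det (k : Matrix (Fin 2) (Fin 2) (Adl K))) :=
    (Matrix.isUnit_iff_isUnit_det _).mp k.isUnit
  have hdetk' : IsUnit (Matrix.det (k' : Matrix (Fin 2) (Fin 2) (Adl K))) :=
    (Matrix.isUnit_iff_isUnit_det _).mp k'.isUnit
  have hdet : algebraMap K (Adl K) (Matrix.det (γ : Matrix (Fin 2) (Fin 2) K)) *
      (((b : Matrix (Fin 2) (Fin 2) (Adl K)) 0 0 * (b : Matrix (Fin 2) (Fin 2) (Adl K)) 1 1) *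
        Matrix.det (k : Matrix (Fin 2) (Fin 2) (Adl K))) =
      ((b' : Matrix (Fin 2) (Fin 2) (Adl K)) 0 0 * (b' : Matrix (Fin 2) (Fin 2) (Adl K)) 1 1) *
        Matrix.det (k' : Matrix (Fin 2) (Fin 2) (Adl K)) := by
    have h := congrArg (fun x : G K => Matrix.det (x : Matrix (Fin 2) (Fin 2) (Adl K))) hg'
    simp only [Units.val_mul, Matrix.det_mul] at h
    rw [hg, Units.val_mul, Matrix.det_mul, det_ratG729, det_of_isUpper729 K hb,
      det_of_isUpper729 K hb'] at h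
    exact h
  have hnorm := congrArg (Fermat.Agent.LT.T1.adNorm K) hdet
  rw [adNorm_mul_isUnit729 K (isUnit_algebraMap729 K hγdet) ((hU₁.mul hU₂).mul hdetk),
    adNorm_mul_isUnit729 K (hU₁.mul hU₂) hdetk, adNorm_mul_isUnit729 K hU₁ hU₂,
    adNorm_mul_isUnit729 K (hU₁'.mul ⟨U₂', hU₂'eq⟩) hdetk',
    adNorm_mul_isUnit729 K hU₁' ⟨U₂', hU₂'eq⟩, adNorm_algebraMap729 K hγdet,
    adNorm_det_stdCompact729 K hk, adNorm_det_stdCompact729 K hk', one_mul, mul_one, mul_one]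
    at hnorm
  -- conclusion
  have hqpos : 0 < Fermat.Agent.LT.T1.adNorm K ((b' : Matrix (Fin 2) (Fin 2) (Adl K)) 1 1) := by
    rw [← hU₂'eq]
    exact adNorm_pos729 K U₂'
  have hP₁ : 0 < Fermat.Agent.LT.T1.adNorm K ((b : Matrix (Fin 2) (Fin 2) (Adl K)) 0 0) := by
    obtain ⟨U, hU⟩ := hU₁
    rw [← hU]
    exact adNorm_pos729 K U
  have hP₂ : 0 < Fermat.Agent.LT.T1.adNorm K ((b : Matrix (Fin 2) (Fin 2) (Adl K)) 1 1) := by
    obtain ⟨U, hU⟩ := hU₂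
    rw [← hU]
    exact adNorm_pos729 K U
  set q := Fermat.Agent.LT.T1.adNorm K ((b' : Matrix (Fin 2) (Fin 2) (Adl K)) 1 1) with hqdef
  set p := Fermat.Agent.LT.T1.adNorm K ((b' : Matrix (Fin 2) (Fin 2) (Adl K)) 0 0) with hpdef
  have hp : p = Fermat.Agent.LT.T1.adNorm K ((b : Matrix (Fin 2) (Fin 2) (Adl K)) 0 0) *
      Fermat.Agent.LT.T1.adNorm K ((b : Matrix (Fin 2) (Fin 2) (Adl K)) 1 1) / q := by
    rw [hnorm]
    field_simp
  rw [hp, div_div]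
  have h4 : 0 < (4 * lam) ^ n := by positivity
  have hqq : q * q ≤ (4 * lam) ^ (2 * n) := by
    rw [two_mul, pow_add]
    exact mul_le_mul hq hq hqpos.le h4.le
  exact div_le_div_of_nonneg_left (mul_pos hP₁ hP₂).le (mul_pos hqpos hqpos) hqq

end Fermat.Agent.LT.T1.H729
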