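import Mathlib
import Fermat.Agent.LT.H556.A0
import Fermat.Agent.LT.T1.Spec
import Fermat.Agent.LT.T1.H729.Red.HeightBound

/-!
# Row LT, tower T1, leaf T1.14 (helper729): REDUCTION THEORY, covering

OFF-MAIN.  `leafReduction_of_scale729 K : ScaleC729 K → T1.LeafReduction K`, i.e. the sub-leaf
T1.14 of `LT/T1/Spec.lean` (helper54) from the asset SCALE (helper849): Haar measures of `𝔸_K`
scale by the module under multiplication by ideles.

Proof (adelic Minkowski): `g = b k` (Iwasawa), `b = [[u₁, x], [0, u₂]]`.  The sheared box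
`{(r₁, r₂) : r₁ u₁ ∈ I_λ, r₁ x + r₂ u₂ ∈ I_λ}` has measure `λ^{2n} vol(I)² / (‖u₁‖ ‖u₂‖)`; for
`λ^{2n} = 2 vol(D)² ‖u₁‖ ‖u₂‖ / vol(I)²` Blichfeldt gives `(c, d) ≠ 0` in `K²` with
`(c, d) b ∈ (I_λ - I_λ)²`.  For `γ` with bottom row `(c, d)` and `γ g = b' k'` one gets
`‖b'₁₁‖ ≤ (4 λ)^n` and `‖b'₀₀‖ ‖b'₁₁‖ = ‖u₁‖ ‖u₂‖`, hence
`H(γ g) ≥ ‖u₁‖ ‖u₂‖ / (4 λ)^{2n} = vol(I)² / (2 · 16^n · vol(D)²)`.
-/

set_option autoImplicit false

open IsDedekindDomain NumberField MeasureTheory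
open Fermat.Agent.LT.H556.A0

noncomputable section

namespace Fermat.Agent.LT.T1.H729

set_option linter.unusedSectionVars false

variable (K : Type) [Field K] [NumberField K]

/-- **T1.14 from the asset SCALE.** -/
theorem leafReduction_of_scale729 (hScale : ScaleC729 K) :
    Fermat.Agent.LT.T1.LeafReduction K := by
  intro hLC _hAL hFD _hN hI _hH
  obtain ⟨⟨hlc, _ht2, hsc⟩, -⟩ := hLC
  have := hlc
  have := hsc
  let _ : MeasurableSpace (Adl K) := borel (Adl K)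
  have : BorelSpace (Adl K) := ⟨rfl⟩
  set μ : Measure (Adl K) := Measure.addHaar with hμ
  obtain ⟨D, hDm, hD, -, hD0, hDtop⟩ := hFD μ inferInstance
  obtain ⟨I, hIo, hI0, hItop, hIbox⟩ := exists_box729 K μ
  set n := Module.finrank ℚ K with hn
  have hddpos : 0 < (μ D).toReal := ENNReal.toReal_pos hD0.ne' hDtop.ne
  have hiipos : 0 < (μ I).toReal := ENNReal.toReal_pos hI0 hItop
  refine ⟨(μ I).toReal ^ 2 / (2 * 16 ^ n * (μ D).toReal ^ 2), by positivity, fun g => ?_⟩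
  obtain ⟨b, k, hb, hk, hg⟩ := hI g
  obtain ⟨hU₁, hU₂⟩ := isUnit_diag_of_isUpper729 K hb
  obtain ⟨u₁, hu₁⟩ := hU₁
  obtain ⟨u₂, hu₂⟩ := hU₂
  obtain ⟨c, d, lam, hcd, hlam, hlampow, hb1, hb2⟩ :=
    exists_small_row729 K μ (hScale μ inferInstance) hDm hD hD0.ne' hDtop.ne hIo hI0 hItop hIbox
      u₁ u₂ ((b : Matrix (Fin 2) (Fin 2) (Adl K)) 0 1)
  obtain ⟨γ, hγ0, hγ1⟩ := exists_gl2_row729 K c d hcd
  obtain ⟨b', k', hb', hk', hg'⟩ := hI (Fermat.Agent.LT.T1.ratG K γ * g)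
  refine ⟨γ, Fermat.Agent.LT.T1.adNorm K ((b' : Matrix (Fin 2) (Fin 2) (Adl K)) 0 0) /
      Fermat.Agent.LT.T1.adNorm K ((b' : Matrix (Fin 2) (Fin 2) (Adl K)) 1 1),
    ⟨b', k', hb', hk', hg', rfl⟩, ?_⟩
  rw [hu₁] at hb1
  rw [hu₂] at hb2
  rw [hu₁, hu₂] at hlampow
  rw [← hγ0] at hb1 hb2
  rw [← hγ1] at hb2
  have hbound := height_lower_bound729 K g b k hb hk hg γ lam hlam hb1 hb2 b' k' hb' hk' hg'
  refine le_trans (le_of_eq ?_) hbound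
  -- the constant
  have hP₁ : 0 < Fermat.Agent.LT.T1.adNorm K ((b : Matrix (Fin 2) (Fin 2) (Adl K)) 0 0) := by
    rw [← hu₁]
    exact adNorm_pos729 K u₁
  have hP₂ : 0 < Fermat.Agent.LT.T1.adNorm K ((b : Matrix (Fin 2) (Fin 2) (Adl K)) 1 1) := by
    rw [← hu₂]
    exact adNorm_pos729 K u₂
  have h4 : (4 * lam) ^ (2 * n) = 16 ^ n * lam ^ (2 * n) := by
    rw [mul_pow, pow_mul]
    norm_num
  rw [h4, hlampow]
  have hP₁ne := hP₁.ne'
  have hP₂ne := hP₂.ne'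
  have hdne := hddpos.ne'
  have hine := hiipos.ne'
  field_simp

end Fermat.Agent.LT.T1.H729
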