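import Mathlib
import Fermat.Agent.LT.H556.A0
import Fermat.Agent.LT.T1.Spec
import Fermat.Agent.LT.T1.H671.HaarScale
import Fermat.Agent.LT.T1.H729.Red.Top

/-!
# Row LT, tower T1, leaf T1.14 (helper729): REDUCTION THEORY, covering — closed form

OFF-MAIN.  `leafReduction729 K : T1.LeafReduction K`, unconditionally: the asset SCALE is
`haarScaleC671 K : HaarScaleC K` of helper671 (origin/helper671@8912ffcb3, byte-identical copies
of `LT/H11/{LC,SC}.lean` and `LT/T1/H671/{HaarGen,HaarArch,HaarFin,HaarScale}.lean`), which has
verbatim the shape of `ScaleC729 K`.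
-/

set_option autoImplicit false

open Fermat.Agent.LT.H556.A0

namespace Fermat.Agent.LT.T1.H729

variable (K : Type) [Field K] [NumberField K]

/-- The asset SCALE holds (helper671). -/
theorem scaleC729 : ScaleC729 K :=
  Fermat.Agent.LT.T1.H671.haarScaleC671 K

/-- **T1.14, closed.**  Reduction theory (covering) for `GL₂(𝔸_K)`. -/
theorem leafReduction729 : Fermat.Agent.LT.T1.LeafReduction K :=
  leafReduction_of_scale729 K (scaleC729 K)

end Fermat.Agent.LT.T1.H729
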